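import Fermat.Agent.GT.Val.Conc.Ctx
import Fermat.Agent.GT.Val.Inst.Change

/-!
# GT-VAL, layer Conc, file Mono: the family `fam` is compatible with the enlargement of `L`

`Val.mapFF_mem_vfam_iff` / `Val.mapFF_mem_nonunits_vfam_iff` (Inst/Change.lean) for the square
`L → L₁`, `Lz L ζ → Lz L₁ ζ`.  Instances (all `letI`, all of the form `algIncl _`):
`Algebra L L₁ := algIncl h`, `Algebra (Lz L ζ) (Lz L₁ ζ) := algIncl (Lz_mono h ζ)`,
`Algebra L (Lz L₁ ζ) := algIncl (h.trans (le_Lz L₁ ζ))`; the two `IsScalarTower` by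
`IsScalarTower.of_algebraMap_eq fun _ => rfl`.  `Units.map (algebraMap (Lz L ζ) (Lz L₁ ζ)) (zetaU L ζ) = zetaU L₁ ζ`
(`Units.ext (Subtype.ext rfl)`); `hR`, `hR'` are `Iff.rfl`; `algebraMap L L₁ = (inclusion h).toRingHom` is `rfl`.
Rewrite `fam` with `fam_eq`.
-/

set_option autoImplicit false
set_option synthInstance.maxHeartbeats 400000
set_option linter.style.haveILetI false

namespace Fermat.Agent.GT.Val.Conc

open Fermat.Agent.GR Fermat.Agent.GR.E Fermat.Agent.GT Fermat.Agent.GT.Brg ModularCurve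
  IntermediateField

noncomputable section

variable {q N1 : ℕ} [NeZero q] [NeZero N1] [NeZero (q * N1)] [NeZero (q ^ 2 * N1)]
  {A : ValuationSubring Qb} {ζ : Qbˣ}

theorem Mono_map_zetaU {L L₁ : IntermediateField ℚ Qb} (h : L ≤ L₁) (ζ : Qbˣ) :
    letI := algIncl (Lz_mono h ζ)
    Units.map (algebraMap (Lz L ζ) (Lz L₁ ζ) : Lz L ζ →* Lz L₁ ζ) (zetaU L ζ) = zetaU L₁ ζ :=
  Units.ext (Subtype.ext rfl)

/-- (C3, mono) -/
theorem mapFF_mem_fam_iff (hq : q.Prime) (hA : A.LiesOverPrime q) (hζ : IsPrimitiveRoot ζ q)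
    (hqN : ¬ q ∣ N1) {L L₁ : IntermediateField ℚ Qb} [FiniteDimensional ℚ L]
    [FiniteDimensional ℚ L₁] (hL : InertFixed A L) (hL₁ : InertFixed A L₁) (h : L ≤ L₁)
    (x : FF L (q ^ 2 * N1)) (i : Fin 3) :
    mapFF (IntermediateField.inclusion h).toRingHom (q ^ 2 * N1) x ∈ fam q N1 A ζ L₁ i ↔
      x ∈ fam q N1 A ζ L i := by
  haveI := dvr_RL hq hA L
  haveI := dvr_RL hq hA L₁
  haveI := dvr_RLz hq hA L ζ
  haveI := dvr_RLz hq hA L₁ ζ
  letI : Algebra L L₁ := algIncl h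
  letI : Algebra (Lz L ζ) (Lz L₁ ζ) := algIncl (Lz_mono h ζ)
  letI : Algebra L (Lz L₁ ζ) := algIncl (h.trans (le_Lz L₁ ζ))
  haveI : IsScalarTower L (Lz L ζ) (Lz L₁ ζ) := IsScalarTower.of_algebraMap_eq fun _ => rfl
  haveI : IsScalarTower L L₁ (Lz L₁ ζ) := IsScalarTower.of_algebraMap_eq fun _ => rfl
  rw [fam_eq, fam_eq]
  have C := ctx (N1 := N1) hq hA hζ hqN L hL
  have C₁ := ctx (N1 := N1) hq hA hζ hqN L₁ hL₁
  rw [← Mono_map_zetaU h ζ] at C₁ ⊢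
  exact mapFF_mem_vfam_iff C C₁ (fun _ => Iff.rfl) (fun _ => Iff.rfl) x i

theorem mapFF_mem_nonunits_fam_iff (hq : q.Prime) (hA : A.LiesOverPrime q)
    (hζ : IsPrimitiveRoot ζ q) (hqN : ¬ q ∣ N1) {L L₁ : IntermediateField ℚ Qb}
    [FiniteDimensional ℚ L] [FiniteDimensional ℚ L₁] (hL : InertFixed A L)
    (hL₁ : InertFixed A L₁) (h : L ≤ L₁) (x : FF L (q ^ 2 * N1)) (i : Fin 3) :
    mapFF (IntermediateField.inclusion h).toRingHom (q ^ 2 * N1) x ∈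
        (fam q N1 A ζ L₁ i).nonunits ↔ x ∈ (fam q N1 A ζ L i).nonunits := by
  rw [Basic_mem_nonunits_iff, Basic_mem_nonunits_iff, ← map_inv₀,
    mapFF_mem_fam_iff hq hA hζ hqN hL hL₁ h, map_eq_zero]

end

end Fermat.Agent.GT.Val.Conc
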