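import Fermat.Agent.GT.Val.Conc.Norm
import Fermat.Agent.GT.Val.Conc.Mono
import Fermat.Agent.GT.Val.Inst.NormData

/-!
# GT-VAL, layer Conc, file Fam: the VAL fields of `Brg.GeoFam` for the family `fam q N1 A ζ`

Hypotheses which stay open (supplied by Val/Conc/Par.lean, helper92 + GS-INST): `B : BaseHyp` and `ht : TPar`.
-/

set_option autoImplicit false
set_option synthInstance.maxHeartbeats 400000

namespace Fermat.Agent.GT.Val.Conc

open Fermat.Agent.GR Fermat.Agent.GR.E Fermat.Agent.GT Fermat.Agent.GT.Brg ModularCurve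
  IntermediateField

noncomputable section

variable {q N1 : ℕ} [NeZero q] [NeZero N1] [NeZero (q * N1)] [NeZero (q ^ 2 * N1)]
  {A : ValuationSubring Qb} {ζ : Qbˣ}

/-- What VAL-CONC consumes for each good field (from GS-INST / UNIT, file Par.lean). -/
structure ParHyp (q N1 : ℕ) [NeZero q] [NeZero (q * N1)] (A : ValuationSubring Qb)
    (L : IntermediateField ℚ Qb) [IsDiscreteValuationRing (RL A L)] : Prop where
  base : BaseHyp (RL A L) q N1 ((q : ℕ) : RL A L)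
  par : ∃ t : FF L N1, TPar (RL A L) q N1 ((q : ℕ) : RL A L) t

section fixedL

variable (hq : q.Prime) (hA : A.LiesOverPrime q) (hζ : IsPrimitiveRoot ζ q) (hqN : ¬ q ∣ N1)
  (L : IntermediateField ℚ Qb) [FiniteDimensional ℚ L] (hL : InertFixed A L)
  [IsDiscreteValuationRing (RL A L)] [IsDiscreteValuationRing (RL A (Lz L ζ))]

include hq hA hζ hqN hL

theorem fam_vert (P : ParHyp q N1 A L) :
    VertFam (R := RL A L) (F := FF L (q ^ 2 * N1)) ((q : ℕ) : RL A L) (fam q N1 A ζ L) := by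
  rw [fam_eq]
  exact Val.vertFam (ctx hq hA hζ hqN L hL) P.base

theorem fam_const (P : ParHyp q N1 A L) (i : Fin 3) (r : RL A L) :
    cR A L (q ^ 2 * N1) r ∈ fam q N1 A ζ L i := by
  rw [fam_eq]
  obtain ⟨t, ht⟩ := P.par
  exact (normData (ctx hq hA hζ hqN L hL) (normHyp hq hA hζ hqN L hL) ht).memR i r

theorem fam_sep (P : ParHyp q N1 A L) (i j : Fin 3) (hij : i ≠ j) :
    ∃ e : FF L (q ^ 2 * N1), (∀ k, e ∈ fam q N1 A ζ L k) ∧ e ∈ (fam q N1 A ζ L j).nonunits ∧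
      e ∉ (fam q N1 A ζ L i).nonunits := by
  rw [fam_eq]
  obtain ⟨t, ht⟩ := P.par
  have C := ctx (N1 := N1) hq hA hζ hqN L hL
  obtain ⟨e, he, h1, h2⟩ := sep_all C ht i j hij
  exact ⟨e, fun k => (multiChart C P.base ht).le k e he, h1, h2⟩

theorem fam_val5 (P : ParHyp q N1 A L) (n : ℕ) (hn : ¬ q ∣ n) (u : FF L (q ^ 2 * N1))
    (hu : u ≠ 0) (hNT : NormTriv q N1 n ζ L u) :
    ∃ (a : L) (z : FF L (q ^ 2 * N1)) (b : Fin 3 → RL A L), a ≠ 0 ∧ z ≠ 0 ∧
      (∀ i, IsUnit (b i)) ∧ ∀ i : Fin 3,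
        cL L (q ^ 2 * N1) a * u ^ ((q + 1) * (q - 1)) * z ^ n - cR A L (q ^ 2 * N1) (b i) ∈
          (fam q N1 A ζ L i).nonunits := by
  rw [fam_eq]
  obtain ⟨t, ht⟩ := P.par
  have C := ctx (N1 := N1) hq hA hζ hqN L hL
  have H := normHyp (N1 := N1) hq hA hζ hqN L hL
  have hn0 : 0 < n := Nat.pos_of_ne_zero (by rintro rfl; exact hn (dvd_zero _))
  have hnq : n.Coprime q := ((Nat.Prime.coprime_iff_not_dvd hq).2 hn).symm
  obtain ⟨m, b, z, hz, h⟩ := exists_normalized C H ht hn0 hnq hu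
    (constPow_nm1 hq hqN A L hNT) (constPow_nm2 hq hζ hqN A L hNT)
  refine ⟨(q : L) ^ m, z, fun i => (b i : RL A L),
    zpow_ne_zero _ (Nat.cast_ne_zero.2 hq.ne_zero), hz, fun i => (b i).isUnit, fun i => ?_⟩
  have e : cL L (q ^ 2 * N1) ((q : L) ^ m) =
      algebraMap (RL A L) (FF L (q ^ 2 * N1)) ((q : ℕ) : RL A L) ^ m := by
    rw [cL, map_zpow₀, map_natCast, map_natCast]
  rw [e]
  exact h i

end fixedL

/-- EXPORT: `Brg.GeoFam` for the family `fam`, from `ParHyp` (VAL/GS-INST) and the field `geo` (GLUE). -/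
theorem geoFam (hq : q.Prime) (hA : A.LiesOverPrime q) (hζ : IsPrimitiveRoot ζ q)
    (hqN : ¬ q ∣ N1) (S : Finset Qb) (c2 : ℕ)
    (P : ∀ L : IntermediateField ℚ Qb, GoodField A S L →
      ∀ [IsDiscreteValuationRing (RL A L)], ParHyp q N1 A L)
    (geo : ∀ L : IntermediateField ℚ Qb, GoodField A S L → ∀ n : ℕ, ¬ q ∣ n →
      ∀ w : FF L (q ^ 2 * N1), (∀ i : Fin 3, w - 1 ∈ (fam q N1 A ζ L i).nonunits) →
      DivisibleAtPlaces (RL A L) n w → NormTriv q N1 n ζ L w →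
      KummerEquiv (q ^ 2 * N1) n 1 (coeffMap (algebraMap L Qb) (w : LaurentSeries L) ^ c2)) :
    GeoFam q N1 ((q + 1) * (q - 1)) c2 A ζ S (fam q N1 A ζ) := by
  refine ⟨fun L hG => ?_, fun L hG => ?_, fun L hG => ?_, fun L L' hG hG' h i x hx => ?_,
    fun L hG => ?_, geo⟩
  · have := hG.fin
    have := dvr_RL hq hA L
    have := dvr_RLz hq hA L ζ
    exact fam_vert hq hA hζ hqN L hG.inert (P L hG)
  · have := hG.fin
    have := dvr_RL hq hA L
    have := dvr_RLz hq hA L ζ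
    exact fam_const hq hA hζ hqN L hG.inert (P L hG)
  · have := hG.fin
    have := dvr_RL hq hA L
    have := dvr_RLz hq hA L ζ
    exact fam_sep hq hA hζ hqN L hG.inert (P L hG)
  · have := hG.fin
    have := hG'.fin
    exact (mapFF_mem_fam_iff hq hA hζ hqN hG.inert hG'.inert h x i).2 hx
  · have := hG.fin
    have := dvr_RL hq hA L
    have := dvr_RLz hq hA L ζ
    exact fam_val5 hq hA hζ hqN L hG.inert (P L hG)

end

end Fermat.Agent.GT.Val.Conc
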