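import Fermat.Agent.GT.Val.Inst.Chart
import Fermat.Agent.GT.Val.Inst.Base
import Fermat.Agent.GS.Inst.ChartH
import Fermat.Agent.GS.Tower.WStable
import Fermat.Agent.GR.D.Top.Main

/-!
# GT-VAL, layer Conc, file Par: the hypotheses `BaseHyp` and `TPar` from GS-INST and GR-D

* `baseHyp_conc`: `baseHyp_of_towerData` applied to `GS.Inst.towerData`.
* `tPar_of_towerChart`: `good := Ct.good`; `wint`: `GS.TowerChart.wt_mem_chart T Ct` and
  `wQ L q M0 (up _ t) = V1 L q M0 t` (`Subtype.ext`, `wQ_up0`, `coe_V1`); `frob`: `Ct.cong` says that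
  `(V1 t - t^q)/ϖ` is Gauss-integral, i.e. `V1 t - t^q ∈ 𝔪` (`mem_nonunits_gaussO`,
  `sub_mem_nonunits_gaussO` of Gauss/Along.lean), i.e. `gredFun (qExpand q t) = gredFun (t^q) = (gredFun t)^q`.
* `isParam_of_isGen`: `D.Top.isParam_baseFn`, `IsGen.transcendental`, `IsGen.gen`.
* `tPar_baseFn`: `GS.Inst.towerChart_baseFn`, `D.Top.IsParam.inv`.
The algebra structure `GS.Inst.algFF` is definitionally `Val.algFF L (dvd_q0 q M0)` (unfold `GS.Inst.incl`).
-/

set_option autoImplicit false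
set_option synthInstance.maxHeartbeats 400000
set_option linter.unusedSectionVars false

namespace Fermat.Agent.GT.Val

open Fermat.Agent.GR Fermat.Agent.GR.E Fermat.Agent.GR.D.Vert Fermat.Agent.GT.EMB ModularCurve

noncomputable section

variable {L L' : Type} [Field L] [Field L'] [Algebra L L']
  {R : ValuationSubring L} [IsDiscreteValuationRing R]
  {R' : ValuationSubring L'} [IsDiscreteValuationRing R']
  {q M0 : ℕ} [NeZero q] [NeZero M0] [NeZero (q * M0)] [NeZero (q ^ 2 * M0)] {ζ : L'ˣ} {ϖ : R}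

/-- the tower data of GS-INST, for `w = wQ L q M0`, with the algebra structure of VAL. -/
theorem towerData_conc [CharZero L] [CharP (IsLocalRing.ResidueField R) q]
    (C : Ctx R R' q M0 ζ ϖ) :
    letI := algFF L (dvd_q0 q M0)
    GS.TowerData ϖ (gaussO R M0) (gaussO R (q * M0)) ((wQ L q M0).restrictScalars R) := by
  obtain ⟨ι⟩ := C.exists_embC'
  exact GS.Inst.towerData ι C.prime C.ndvd C.irr
    (GS.Inst.isWq_of_isWQ ι C.prime C.ndvd (GS.Inst.isWQ_wQ ι C.prime C.ndvd))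

/-- (P1) -/
theorem baseHyp_conc [CharZero L] [CharP (IsLocalRing.ResidueField R) q]
    (C : Ctx R R' q M0 ζ ϖ) : BaseHyp R q M0 ϖ :=
  baseHyp_of_towerData C (towerData_conc C)

/-- (P2) -/
theorem tPar_of_towerChart (C : Ctx R R' q M0 ζ ϖ)
    (T : letI := algFF L (dvd_q0 q M0)
      GS.TowerData ϖ (gaussO R M0) (gaussO R (q * M0)) ((wQ L q M0).restrictScalars R))
    {t : FF L M0} (hp : IsParam R M0 t)
    (Ct : letI := algFF L (dvd_q0 q M0)
      GS.TowerChart ϖ (gaussO R M0) (gaussO R (q * M0)) ((wQ L q M0).restrictScalars R) q t) :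
    TPar R q M0 ϖ t := by
  let _ := algFF L (dvd_q0 q M0)
  have : IsScalarTower R (FF L M0) (FF L (q * M0)) := GS.Inst.towerR R
  have e0 : algebraMap (FF L M0) (FF L (q * M0)) t = up (dvd_q0 q M0) t := rfl
  have e1 : (wQ L q M0).restrictScalars R (up (dvd_q0 q M0) t) = V1 L q M0 t :=
    Subtype.ext ((wQ_up0 C t).trans (coe_V1 t).symm)
  refine ⟨hp, Ct.good, ?_, ?_⟩
  · have hc := Ct.cong
    rw [e0, e1] at hc
    have h1 : V1 L q M0 t - up (dvd_q0 q M0) t ^ q ∈ (gaussO R (q * M0)).nonunits :=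
      (gaussRing_mem_nonunits_iff T.gauss _).2 hc
    have htG : IsGInt R (t : LaurentSeries L) := mem_gaussO.1 hp.mem
    have hV : V1 L q M0 t ∈ gaussO R (q * M0) := by
      rw [mem_gaussO, coe_V1]
      exact isGInt_qExpand q htG
    have hu : up (dvd_q0 q M0) t ^ q ∈ gaussO R (q * M0) := by
      refine pow_mem ?_ q
      rw [mem_gaussO, coe_up]
      exact htG
    have h2 := (sub_mem_nonunits_gaussO hV hu).1 h1
    rw [coe_V1, IntermediateField.coe_pow, coe_up, gredFun_pow htG] at h2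
    exact h2
  · have h := GS.TowerChart.wt_mem_chart T Ct
    rw [e0, e1] at h
    exact h

/-- (P3) -/
theorem isParam_of_isGen [CharZero L] {r : ℕ} {H : LaurentSeries ℤ} (hH : GS.Inst.IsGen r H)
    (hm : baseFn L H ∈ FF L M0) : IsParam R M0 ⟨baseFn L H, hm⟩ := by
  refine D.Top.isParam_baseFn R M0 H hm (hH.transcendental _) ?_
  have h1 : jqModC L ∈ IntermediateField.adjoin L {baseFn L H} :=
    hH.gen L (jqModC_mem_full L r)
  have h2 : (IntermediateField.adjoin L {(⟨baseFn L H, hm⟩ : FF L M0)}).map (FF L M0).val =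
      IntermediateField.adjoin L {baseFn L H} := by
    rw [IntermediateField.adjoin_map, Set.image_singleton]
    rfl
  rw [← h2] at h1
  obtain ⟨y, hy, hyj⟩ := (IntermediateField.mem_map _).1 h1
  have e : y = jFF M0 := Subtype.ext hyj
  rw [← e]
  exact hy

/-- (P4) -/
theorem tPar_baseFn [CharZero L] [Algebra L Qb] [Algebra.IsAlgebraic L Qb]
    [CharP (IsLocalRing.ResidueField R) q] (C : Ctx R R' q M0 ζ ϖ)
    {r : ℕ} [NeZero r] {H : LaurentSeries ℤ} (hH : GS.Inst.IsHaupt r H) (hrN : r ∣ M0)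
    (hm : baseFn L H ∈ FF L M0) {𝒪1 : ValuationSubring (FF L M0)}
    (M : ModelData R M0 ⟨baseFn L H, hm⟩ 𝒪1) :
    TPar R q M0 ϖ (⟨baseFn L H, hm⟩ : FF L M0) ∧ TPar R q M0 ϖ (⟨baseFn L H, hm⟩ : FF L M0)⁻¹ := by
  obtain ⟨ι⟩ := C.exists_embC'
  have T := towerData_conc C
  obtain ⟨c0, c1⟩ := GS.Inst.towerChart_baseFn hH C.prime C.ndvd hrN hm M
    (GS.Inst.isWQ_wQ ι C.prime C.ndvd) C.irr
  have hp : IsParam R M0 ⟨baseFn L H, hm⟩ := isParam_of_isGen hH.toIsGen hm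
  exact ⟨tPar_of_towerChart C T hp c0, tPar_of_towerChart C T (D.Top.IsParam.inv hp) c1⟩

theorem up_inv {K : Type*} [Field K] {N N' : ℕ} (h : N ∣ N') (u : FF K N) :
    up h u⁻¹ = (up h u)⁻¹ := by
  unfold up
  exact map_inv₀ (IntermediateField.inclusion (FF_mono K h)) u

theorem t0F_inv (t : FF L M0) : t0F q t⁻¹ = (t0F q t)⁻¹ := up_inv _ t

/-- (P5) EXPORT: over `L ⊆ Q̄` a number field, `R = A ∩ L`. -/
theorem par_of_hasModel {A : ValuationSubring Qb} (hA : A.LiesOverPrime q)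
    (L : IntermediateField ℚ Qb) [FiniteDimensional ℚ L]
    [IsDiscreteValuationRing (A.comap (algebraMap L Qb))] [Algebra L L']
    {ϖ : A.comap (algebraMap L Qb)} (C : Ctx (A.comap (algebraMap L Qb)) R' q M0 ζ ϖ)
    {r : ℕ} [NeZero r] {H : LaurentSeries ℤ} (hH : GS.Inst.IsHaupt r H) (hrN : r ∣ M0)
    (M : HasModel A M0 H) :
    BaseHyp (A.comap (algebraMap L Qb)) q M0 ϖ ∧
      TPar (A.comap (algebraMap L Qb)) q M0 ϖ (⟨baseFn L H, M.mem L⟩ : FF L M0) ∧
      TPar (A.comap (algebraMap L Qb)) q M0 ϖ (⟨baseFn L H, M.mem L⟩ : FF L M0)⁻¹ := by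
  have := D.Top.charP_residueField A q C.prime hA L
  have : Algebra.IsAlgebraic ℚ Qb := AlgebraicClosure.isAlgebraic ℚ
  have : Algebra.IsAlgebraic L Qb := Algebra.IsAlgebraic.tower_top (K := ℚ) L
  obtain ⟨𝒪, hM⟩ := M.model L inferInstance
  exact ⟨baseHyp_conc C, tPar_baseFn C hH hrN (M.mem L) hM⟩

/-- (P6) EXPORT: the base function: `h₃` for `q = 2`, `h₂` for `q` odd. -/
theorem exists_par {A : ValuationSubring Qb} (hA : A.LiesOverPrime q)
    (hM0 : (q = 2 ∧ 3 ∣ M0) ∨ (q ≠ 2 ∧ 2 ∣ M0)) (hq : q.Prime) (hqM : ¬ q ∣ M0) :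
    ∃ (H : LaurentSeries ℤ) (M : HasModel A M0 H),
      ∀ (L : IntermediateField ℚ Qb) [FiniteDimensional ℚ L]
        [IsDiscreteValuationRing (A.comap (algebraMap L Qb))]
        (L' : Type) [Field L'] [Algebra L L'] (R' : ValuationSubring L')
        [IsDiscreteValuationRing R'] (ζ : L'ˣ) (ϖ : A.comap (algebraMap L Qb)),
        Ctx (A.comap (algebraMap L Qb)) R' q M0 ζ ϖ →
        BaseHyp (A.comap (algebraMap L Qb)) q M0 ϖ ∧
          TPar (A.comap (algebraMap L Qb)) q M0 ϖ (⟨baseFn L H, M.mem L⟩ : FF L M0) ∧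
          TPar (A.comap (algebraMap L Qb)) q M0 ϖ (⟨baseFn L H, M.mem L⟩ : FF L M0)⁻¹ := by
  rcases hM0 with ⟨-, h3⟩ | ⟨-, h2⟩
  · refine ⟨Fermat.Agent.Lib.Hauptmodul.h3, D.Top.hasModel_h3 M0 h3 q hq hqM A hA, ?_⟩
    intro L _ _ L' _ _ R' _ ζ ϖ C
    exact par_of_hasModel hA L C GS.Inst.isHaupt_h3 h3 (D.Top.hasModel_h3 M0 h3 q hq hqM A hA)
  · refine ⟨Fermat.Agent.Lib.Hauptmodul.h2, D.Top.hasModel_h2 M0 h2 q hq hqM A hA, ?_⟩
    intro L _ _ L' _ _ R' _ ζ ϖ C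
    exact par_of_hasModel hA L C GS.Inst.isHaupt_h2 h2 (D.Top.hasModel_h2 M0 h2 q hq hqM A hA)

end

end Fermat.Agent.GT.Val
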