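import Fermat.Agent.GT.Val.Conc.Fam
import Fermat.Agent.GT.Val.Conc.Par

/-!
# GT-VAL, layer Conc, file ParInst: `ParHyp` for every good field, and `GeoFam` from the field `geo` alone
-/

set_option autoImplicit false
set_option synthInstance.maxHeartbeats 400000

namespace Fermat.Agent.GT.Val.Conc

open Fermat.Agent.GR Fermat.Agent.GR.E Fermat.Agent.GT Fermat.Agent.GT.Brg ModularCurve
  IntermediateField

noncomputable section

variable {q N1 : ℕ} [NeZero q] [NeZero N1] [NeZero (q * N1)] [NeZero (q ^ 2 * N1)]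
  {A : ValuationSubring Qb} {ζ : Qbˣ}

/-- the arithmetic hypothesis of `GeoAll` implies the one of `Val.exists_par`. -/
theorem ParInst_level (h : (q = 2 ∧ 9 ∣ N1) ∨ (q ≠ 2 ∧ 4 ∣ N1)) :
    (q = 2 ∧ 3 ∣ N1) ∨ (q ≠ 2 ∧ 2 ∣ N1) := by
  rcases h with ⟨h1, h2⟩ | ⟨h1, h2⟩
  · exact Or.inl ⟨h1, dvd_trans (by norm_num) h2⟩
  · exact Or.inr ⟨h1, dvd_trans (by norm_num) h2⟩

/-- the base function and its three properties over every good field. -/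
theorem exists_base (hq : q.Prime) (hA : A.LiesOverPrime q) (hζ : IsPrimitiveRoot ζ q)
    (hqN : ¬ q ∣ N1) (hN1 : (q = 2 ∧ 3 ∣ N1) ∨ (q ≠ 2 ∧ 2 ∣ N1)) :
    ∃ (H : LaurentSeries ℤ) (M : HasModel A N1 H),
      ∀ (L : IntermediateField ℚ Qb) [FiniteDimensional ℚ L], InertFixed A L →
        ∀ [IsDiscreteValuationRing (RL A L)],
        BaseHyp (RL A L) q N1 ((q : ℕ) : RL A L) ∧
          TPar (RL A L) q N1 ((q : ℕ) : RL A L) (⟨baseFn L H, M.mem L⟩ : FF L N1) ∧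
          TPar (RL A L) q N1 ((q : ℕ) : RL A L) (⟨baseFn L H, M.mem L⟩ : FF L N1)⁻¹ := by
  obtain ⟨H, M, h⟩ := Val.exists_par hA hN1 hq hqN
  refine ⟨H, M, fun L _ hL _ => ?_⟩
  have := dvr_RLz hq hA L ζ
  exact h L (Lz L ζ) (RL A (Lz L ζ)) (zetaU L ζ) ((q : ℕ) : RL A L) (ctx hq hA hζ hqN L hL)

theorem parHyp (hq : q.Prime) (hA : A.LiesOverPrime q) (hζ : IsPrimitiveRoot ζ q)
    (hqN : ¬ q ∣ N1) (hN1 : (q = 2 ∧ 3 ∣ N1) ∨ (q ≠ 2 ∧ 2 ∣ N1))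
    (L : IntermediateField ℚ Qb) [FiniteDimensional ℚ L] (hL : InertFixed A L)
    [IsDiscreteValuationRing (RL A L)] : ParHyp q N1 A L := by
  obtain ⟨H, M, h⟩ := exists_base hq hA hζ hqN hN1
  obtain ⟨h1, h2, -⟩ := h L hL
  exact ⟨h1, _, h2⟩

/-- EXPORT: `Brg.GeoFam` for the family `fam`, from the field `geo` (GLUE) alone. -/
theorem geoFam_of_geo (hq : q.Prime) (hA : A.LiesOverPrime q) (hζ : IsPrimitiveRoot ζ q)
    (hqN : ¬ q ∣ N1) (hN1 : (q = 2 ∧ 9 ∣ N1) ∨ (q ≠ 2 ∧ 4 ∣ N1)) (S : Finset Qb) (c2 : ℕ)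
    (geo : ∀ L : IntermediateField ℚ Qb, GoodField A S L → ∀ n : ℕ, ¬ q ∣ n →
      ∀ w : FF L (q ^ 2 * N1), (∀ i : Fin 3, w - 1 ∈ (fam q N1 A ζ L i).nonunits) →
      DivisibleAtPlaces (RL A L) n w → NormTriv q N1 n ζ L w →
      KummerEquiv (q ^ 2 * N1) n 1 (coeffMap (algebraMap L Qb) (w : LaurentSeries L) ^ c2)) :
    GeoFam q N1 ((q + 1) * (q - 1)) c2 A ζ S (fam q N1 A ζ) :=
  geoFam hq hA hζ hqN S c2
    (fun L hG _ => haveI := hG.fin; parHyp hq hA hζ hqN (ParInst_level hN1) L hG.inert) geo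

end

end Fermat.Agent.GT.Val.Conc
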