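import Fermat.Agent.GT.Val.Conc.Defs
import Fermat.Agent.GT.Base
import Fermat.Agent.GT.W.Unram
import Fermat.Agent.GR.E.BR5

/-!
# GT-VAL, layer Conc, file Ctx: the instance of `Val.Ctx` for `(L, L(ζ), A ∩ L, A ∩ L(ζ), ζ, q)`

* DVR: `GR.E.isDiscreteValuationRing_comap A q hq hA L` (`[FiniteDimensional ℚ L]`).
* `finiteDimensional_Lz`: `IntermediateField.finiteDimensional_sup`, `ℚ⟮ζ⟯` finite because `ζ` is integral
  (`IntermediateField.adjoin.finiteDimensional`, `Brg.Field_isIntegral` or `hζ`).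
* `ctx`: `prime := hq`, `ndvd := hqN`, `emb := ⟨algebraMap (Lz L ζ) Qb⟩`, `comap := fun x => Iff.rfl` (both say `(x : Qb) ∈ A`),
  `irr := GT.irreducible_natCast_of_unramAt hA hq.ne_zero (W.Unram_unramAt_of_inertFixed hq A hA L hL)`,
  `unif := rfl`-like (`Nat.cast` in the subring), `root`: `IsPrimitiveRoot` transported along the injective
  `Units.map (algebraMap (Lz L ζ) Qb)` (`IsPrimitiveRoot.of_map_of_injective`).
-/

set_option autoImplicit false
set_option synthInstance.maxHeartbeats 400000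

namespace Fermat.Agent.GT.Val.Conc

open Fermat.Agent.GR Fermat.Agent.GR.E Fermat.Agent.GT Fermat.Agent.GT.Brg ModularCurve
  IntermediateField

noncomputable section

variable {q N1 : ℕ} {A : ValuationSubring Qb} {ζ : Qbˣ}

theorem finiteDimensional_Lz (L : IntermediateField ℚ Qb) [FiniteDimensional ℚ L] (ζ : Qbˣ) :
    FiniteDimensional ℚ (Lz L ζ) := by
  have : FiniteDimensional ℚ ℚ⟮(ζ : Qb)⟯ :=
    IntermediateField.adjoin.finiteDimensional ((AlgebraicClosure.isAlgebraic ℚ).isAlgebraic (ζ : Qb)).isIntegral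
  exact IntermediateField.finiteDimensional_sup L ℚ⟮(ζ : Qb)⟯

theorem dvr_RL (hq : q.Prime) (hA : A.LiesOverPrime q) (L : IntermediateField ℚ Qb)
    [FiniteDimensional ℚ L] : IsDiscreteValuationRing (RL A L) :=
  isDiscreteValuationRing_comap A q hq hA L

theorem dvr_RLz (hq : q.Prime) (hA : A.LiesOverPrime q) (L : IntermediateField ℚ Qb)
    [FiniteDimensional ℚ L] (ζ : Qbˣ) : IsDiscreteValuationRing (RL A (Lz L ζ)) :=
  haveI := finiteDimensional_Lz L ζ
  isDiscreteValuationRing_comap A q hq hA (Lz L ζ)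

/-- the image of `zetaU L ζ` in `ℚ̄` is `ζ`. -/
theorem map_zetaU (L : IntermediateField ℚ Qb) (ζ : Qbˣ) :
    Units.map ((algebraMap (Lz L ζ) Qb : Lz L ζ →+* Qb) : Lz L ζ →* Qb) (zetaU L ζ) = ζ :=
  Units.ext rfl

theorem isPrimitiveRoot_zetaU (L : IntermediateField ℚ Qb) (hζ : IsPrimitiveRoot ζ q) :
    IsPrimitiveRoot (zetaU L ζ) q := by
  have hinj : Function.Injective
      (Units.map ((algebraMap (Lz L ζ) Qb : Lz L ζ →+* Qb) : Lz L ζ →* Qb)) :=
    Units.map_injective (algebraMap (Lz L ζ) Qb).injective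
  refine IsPrimitiveRoot.of_map_of_injective (f := Units.map
    ((algebraMap (Lz L ζ) Qb : Lz L ζ →+* Qb) : Lz L ζ →* Qb)) ?_ hinj
  rw [map_zetaU]
  exact hζ

/-- (C1) -/
theorem ctx (hq : q.Prime) (hA : A.LiesOverPrime q) (hζ : IsPrimitiveRoot ζ q) (hqN : ¬ q ∣ N1)
    (L : IntermediateField ℚ Qb) [FiniteDimensional ℚ L] (hL : InertFixed A L)
    [IsDiscreteValuationRing (RL A L)] [IsDiscreteValuationRing (RL A (Lz L ζ))] :
    Ctx (RL A L) (RL A (Lz L ζ)) q N1 (zetaU L ζ) ((q : ℕ) : RL A L) where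
  prime := hq
  ndvd := hqN
  emb := ⟨algebraMap (Lz L ζ) Qb⟩
  comap := fun _ => Iff.rfl
  irr := irreducible_natCast_of_unramAt hA hq.ne_zero (W.Unram_unramAt_of_inertFixed hq A hA L hL)
  unif := rfl
  root := isPrimitiveRoot_zetaU L hζ

end

end Fermat.Agent.GT.Val.Conc
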