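import Fermat.Agent.GT.Val.Inst.Defs
import Fermat.Agent.GT.Brg.Defs

/-!
# GT-VAL, layer Conc (concrete family over the good fields), file Defs

`A` a valuation subring of `ℚ̄` over `q`, `ζ ∈ ℚ̄` a primitive `q`-th root of unity.  For every
`L : IntermediateField ℚ Qb` we put `Lz L ζ = L(ζ)`, `R = RL A L = A ∩ L`, `R' = RL A (Lz L ζ)`, and
`fam q N1 A ζ L = Val.vfam R R' q N1 ζ` (junk `⊤` when `R` or `R'` is not a DVR, e.g. `[L : ℚ] = ∞`).
-/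

set_option autoImplicit false
set_option synthInstance.maxHeartbeats 400000

namespace Fermat.Agent.GT.Val.Conc

open Fermat.Agent.GR Fermat.Agent.GR.E Fermat.Agent.GT Fermat.Agent.GT.Brg ModularCurve
  IntermediateField

noncomputable section

/-- `L(ζ)`. -/
def Lz (L : IntermediateField ℚ Qb) (ζ : Qbˣ) : IntermediateField ℚ Qb := L ⊔ ℚ⟮(ζ : Qb)⟯

theorem le_Lz (L : IntermediateField ℚ Qb) (ζ : Qbˣ) : L ≤ Lz L ζ := le_sup_left

theorem zeta_mem_Lz (L : IntermediateField ℚ Qb) (ζ : Qbˣ) : (ζ : Qb) ∈ Lz L ζ :=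
  (le_sup_right : ℚ⟮(ζ : Qb)⟯ ≤ L ⊔ ℚ⟮(ζ : Qb)⟯) (mem_adjoin_simple_self ℚ (ζ : Qb))

theorem Lz_mono {L L₁ : IntermediateField ℚ Qb} (h : L ≤ L₁) (ζ : Qbˣ) : Lz L ζ ≤ Lz L₁ ζ :=
  sup_le_sup_right h _

/-- the algebra structure attached to an inclusion of intermediate fields (use with `letI`). -/
@[reducible] def algIncl {L L₁ : IntermediateField ℚ Qb} (h : L ≤ L₁) : Algebra L L₁ :=
  (IntermediateField.inclusion h).toRingHom.toAlgebra

/-- `L(ζ)` as an `L`-algebra. -/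
instance algLz (L : IntermediateField ℚ Qb) (ζ : Qbˣ) : Algebra L (Lz L ζ) := algIncl (le_Lz L ζ)

@[simp] theorem coe_algebraMap_Lz (L : IntermediateField ℚ Qb) (ζ : Qbˣ) (x : L) :
    ((algebraMap L (Lz L ζ) x : Lz L ζ) : Qb) = x := rfl

/-- `ζ` as a unit of `L(ζ)`. -/
def zetaU (L : IntermediateField ℚ Qb) (ζ : Qbˣ) : (Lz L ζ)ˣ where
  val := ⟨(ζ : Qb), zeta_mem_Lz L ζ⟩
  inv := ⟨((ζ⁻¹ : Qbˣ) : Qb), by
    rw [Units.val_inv_eq_inv_val]
    exact (Lz L ζ).inv_mem (zeta_mem_Lz L ζ)⟩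
  val_inv := Subtype.ext ζ.mul_inv
  inv_val := Subtype.ext ζ.inv_mul

@[simp] theorem coe_zetaU (L : IntermediateField ℚ Qb) (ζ : Qbˣ) :
    (((zetaU L ζ : (Lz L ζ)ˣ) : Lz L ζ) : Qb) = ζ := rfl

open Classical in
/-- THE FAMILY of the three vertical valuation subrings of `FF L (q² N1)`. -/
def fam (q N1 : ℕ) [NeZero (q ^ 2 * N1)] (A : ValuationSubring Qb) (ζ : Qbˣ)
    (L : IntermediateField ℚ Qb) : Fin 3 → ValuationSubring (FF L (q ^ 2 * N1)) :=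
  if h : IsDiscreteValuationRing (RL A L) ∧ IsDiscreteValuationRing (RL A (Lz L ζ)) then
    haveI := h.1
    haveI := h.2
    vfam (RL A L) (RL A (Lz L ζ)) q N1 (zetaU L ζ)
  else fun _ => ⊤

theorem fam_eq (q N1 : ℕ) [NeZero (q ^ 2 * N1)] (A : ValuationSubring Qb) (ζ : Qbˣ)
    (L : IntermediateField ℚ Qb) [h1 : IsDiscreteValuationRing (RL A L)]
    [h2 : IsDiscreteValuationRing (RL A (Lz L ζ))] :
    fam q N1 A ζ L = vfam (RL A L) (RL A (Lz L ζ)) q N1 (zetaU L ζ) :=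
  dif_pos ⟨h1, h2⟩

end

end Fermat.Agent.GT.Val.Conc
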