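import Fermat.Agent.GT.Val.Conc.Ctx
import Fermat.Agent.GT.Val.Inst.NormCompat
import Fermat.Agent.GT.Brg.NormL
import Fermat.Agent.GT.Glue.Inst

/-!
# GT-VAL, layer Conc, file Norm: `NormHyp` for `Brg.nm1`, `Brg.nm2`; `NormTriv ⟹ ConstPow`; adapters

* `normHyp`: `Val.normHyp_of_compat (ctx ..) (algebraMap (Lz L ζ) Qb) h1 h2`;
  `(algebraMap (Lz L ζ) Qb).comp (algebraMap L (Lz L ζ)) = algebraMap L Qb` (`comp_algebraMap`, `RingHom.ext fun _ => rfl`),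
  `h1 = Brg.mapFF_nm1 L hq hN1 hqN`, `h2 = Brg.coeffMap_nm2 L hq hN1 hqN ζ hζ` after `map_zetaU`.
* `constPow_nm1/2`: copy the lines `h1`, `h2` of `Glue.geo_of_geoData` (`Glue.constPow_of_eq`, `BR7_coeffMap_injective`,
  `Brg.mapFF_nm1` + `coe_mapFF`, `Brg.coeffMap_nm2`).
* adapters: `Subtype.ext`, `Val.phi1_apply`, `coe_up`, `Brg.coe_phi1`, `Val.phi2_apply`, `coe_V2`, `Brg.coe_phi2`.  NEVER `rfl` across
  two levels.
-/

set_option autoImplicit false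
set_option synthInstance.maxHeartbeats 400000

namespace Fermat.Agent.GT.Val.Conc

open Fermat.Agent.GR Fermat.Agent.GR.E Fermat.Agent.GT Fermat.Agent.GT.Brg ModularCurve
  IntermediateField

noncomputable section

variable {q N1 : ℕ} [NeZero q] [NeZero N1] [NeZero (q * N1)] [NeZero (q ^ 2 * N1)]
  {A : ValuationSubring Qb} {ζ : Qbˣ}

theorem comp_algebraMap (L : IntermediateField ℚ Qb) (ζ : Qbˣ) :
    (algebraMap (Lz L ζ) Qb).comp (algebraMap L (Lz L ζ)) = algebraMap L Qb :=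
  RingHom.ext fun _ => rfl

/-- (C2) -/
theorem normHyp (hq : q.Prime) (hA : A.LiesOverPrime q) (hζ : IsPrimitiveRoot ζ q)
    (hqN : ¬ q ∣ N1) (L : IntermediateField ℚ Qb) [FiniteDimensional ℚ L] (hL : InertFixed A L)
    [IsDiscreteValuationRing (RL A L)] [IsDiscreteValuationRing (RL A (Lz L ζ))] :
    NormHyp q N1 (zetaU L ζ) (nm1 L q N1) (nm2 L q N1) := by
  refine normHyp_of_compat (ctx hq hA hζ hqN L hL) (algebraMap (Lz L ζ) Qb) (fun x => ?_)
    (fun x => ?_)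
  · rw [comp_algebraMap]
    exact Brg.mapFF_nm1 L hq (NeZero.ne N1) hqN x
  · rw [comp_algebraMap, map_zetaU]
    exact Brg.coeffMap_nm2 L hq (NeZero.ne N1) hqN ζ hζ x

theorem constPow_nm1 (hq : q.Prime) (hqN : ¬ q ∣ N1) (A : ValuationSubring Qb)
    (L : IntermediateField ℚ Qb) {n : ℕ} {u : FF L (q ^ 2 * N1)} (h : NormTriv q N1 n ζ L u) :
    Glue.ConstPow (RL A L) n (nm1 L q N1 u) := by
  obtain ⟨-, ⟨c1, z1, hc1, -, e1⟩⟩ := h
  refine Glue.constPow_of_eq (RL A L) (q * N1) n hc1 (z := z1)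
    (BR7_coeffMap_injective (algebraMap L Qb) ?_)
  rw [← e1, ← Brg.mapFF_nm1 L hq (NeZero.ne N1) hqN u, coe_mapFF]

theorem constPow_nm2 (hq : q.Prime) (hζ : IsPrimitiveRoot ζ q) (hqN : ¬ q ∣ N1)
    (A : ValuationSubring Qb) (L : IntermediateField ℚ Qb) {n : ℕ} {u : FF L (q ^ 2 * N1)}
    (h : NormTriv q N1 n ζ L u) : Glue.ConstPow (RL A L) n (nm2 L q N1 u) := by
  obtain ⟨⟨c2, z2, hc2, -, e2⟩, -⟩ := h
  refine Glue.constPow_of_eq (RL A L) (q * N1) n hc2 (z := z2)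
    (BR7_coeffMap_injective (algebraMap L Qb) ?_)
  rw [← e2, Brg.coeffMap_nm2 L hq (NeZero.ne N1) hqN ζ hζ u]

/-- adapter: VAL's `phi1` is BRG's `phi1`. -/
theorem phi1_eq (L : IntermediateField ℚ Qb) (R : ValuationSubring L) (f : FF L (q * N1)) :
    Val.phi1 R q N1 f = Brg.phi1 L q N1 f := by
  apply Subtype.ext
  rw [Brg.coe_phi1]
  exact coe_up (dvd_sq q N1) f

/-- adapter: VAL's `phi2` is BRG's `phi2`. -/
theorem phi2_eq (L : IntermediateField ℚ Qb) (R : ValuationSubring L) (f : FF L (q * N1)) :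
    Val.phi2 R q N1 f = Brg.phi2 L q N1 f := by
  apply Subtype.ext
  rw [Brg.coe_phi2]
  rfl

end

end Fermat.Agent.GT.Val.Conc
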